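import Mathlib

/-!
# Lucas sequences and their ranks of apparition

`U (n + 2) = P U (n + 1) - Q U n` is the coefficient of `ω` in `ω ^ n`, `ω ^ 2 = P ω - Q`.
A prime dividing `U n` for coprime `P, Q` is prime to `Q`, so its multiples among the `U j` are
those of a rank `r`, which divides `q - 1` or `q + 1` unless `q ∣ P² - 4Q`, when `r = q`.
-/

set_option autoImplicit false

namespace FA.RealLucasPrimitive

open QuadraticAlgebra

/-- The Lucas sequence `U n (P, Q)`. -/
def lucasU (P Q : ℤ) : ℕ → ℤ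
  | 0 => 0
  | 1 => 1
  | n + 2 => P * lucasU P Q (n + 1) - Q * lucasU P Q n

/-- `ℤ[ω]` with `ω ^ 2 = P ω - Q`. -/
abbrev LucasRing (P Q : ℤ) : Type _ := QuadraticAlgebra ℤ (-Q) P

/-- The root `ω`. -/
def root (P Q : ℤ) : LucasRing P Q := ⟨0, 1⟩

/-- The rational part of `ω ^ n`. -/
def rePow (P Q : ℤ) (n : ℕ) : ℤ := (root P Q ^ n).re

variable (P Q : ℤ)

theorem root_pow_succ (n : ℕ) :
    root P Q ^ (n + 1) = ⟨-Q * lucasU P Q n, lucasU P Q (n + 1)⟩ := by
  induction n with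
  | zero => simp [root, lucasU]
  | succ n ih =>
    rw [pow_succ, ih]
    ext <;> simp [root, lucasU]
    ring

theorem im_root_pow (n : ℕ) : (root P Q ^ n).im = lucasU P Q n := by
  rcases n with _ | n
  · simp [lucasU]
  · rw [root_pow_succ]

theorem lucasU_add (m k : ℕ) : lucasU P Q (m + k) =
    rePow P Q m * lucasU P Q k + lucasU P Q m * rePow P Q k +
      P * lucasU P Q m * lucasU P Q k := by
  rw [← im_root_pow, pow_add, im_mul, im_root_pow, im_root_pow]
  rfl

theorem lucasU_two_mul (m : ℕ) :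
    lucasU P Q (2 * m) = lucasU P Q m * (2 * rePow P Q m + P * lucasU P Q m) := by
  rw [two_mul m, lucasU_add]
  ring

theorem rePow_norm (m : ℕ) :
    rePow P Q m ^ 2 + P * rePow P Q m * lucasU P Q m + Q * lucasU P Q m ^ 2 = Q ^ m := by
  have h := map_pow (QuadraticAlgebra.norm (R := ℤ) (a := -Q) (b := P)) (root P Q) m
  rw [norm_def, norm_def, im_root_pow] at h
  simp only [root, mul_zero, mul_one, zero_add, sub_neg_eq_add] at h
  rw [← h]
  simp only [rePow, root]
  ring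

theorem dvd_lucasU_succ_sub (n : ℕ) : Q ∣ lucasU P Q (n + 1) - P ^ n := by
  induction n with
  | zero => simp [lucasU]
  | succ n ih =>
    obtain ⟨c, hc⟩ := ih
    exact ⟨P * c - lucasU P Q n, by rw [lucasU, pow_succ]; linear_combination P * hc⟩

variable {P Q}

section Prime

variable {q : ℕ} (hq : q.Prime)
include hq

theorem not_dvd_Q (hco : IsCoprime P Q) {m : ℕ} (hm : 0 < m) (h : (q : ℤ) ∣ lucasU P Q m) :
    ¬(q : ℤ) ∣ Q := fun hQ => by
  obtain ⟨n, rfl⟩ : ∃ n, m = n + 1 := ⟨m - 1, by omega⟩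
  have hqi : Prime (q : ℤ) := Nat.prime_iff_prime_int.1 hq
  refine hqi.not_isUnit (hco.isUnit_of_dvd' (hqi.dvd_of_dvd_pow (n := n) ?_) hQ)
  simpa using dvd_sub h (hQ.trans (dvd_lucasU_succ_sub P Q n))

theorem not_dvd_rePow (hQ : ¬(q : ℤ) ∣ Q) {m : ℕ} (h : (q : ℤ) ∣ lucasU P Q m) :
    ¬(q : ℤ) ∣ rePow P Q m := fun ha => by
  refine hQ ((Nat.prime_iff_prime_int.1 hq).dvd_of_dvd_pow (n := m) ?_)
  rw [← rePow_norm]
  exact dvd_add (dvd_add (dvd_pow ha two_ne_zero) (h.mul_left _))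
    ((dvd_pow h two_ne_zero).mul_left _)

theorem dvd_add_iff' (hQ : ¬(q : ℤ) ∣ Q) {m : ℕ} (h : (q : ℤ) ∣ lucasU P Q m) (k : ℕ) :
    (q : ℤ) ∣ lucasU P Q (m + k) ↔ (q : ℤ) ∣ lucasU P Q k := by
  rw [lucasU_add, add_assoc,
    dvd_add_left ((h.mul_right (rePow P Q k)).add ((h.mul_left P).mul_right (lucasU P Q k)))]
  exact ⟨fun h' => ((Nat.prime_iff_prime_int.1 hq).dvd_or_dvd h').resolve_left
    (not_dvd_rePow hq hQ h), fun h' => h'.mul_left _⟩

theorem dvd_of_dvd_index (hco : IsCoprime P Q) {m j : ℕ} (hm : 0 < m)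
    (h : (q : ℤ) ∣ lucasU P Q m) (hj : m ∣ j) : (q : ℤ) ∣ lucasU P Q j := by
  obtain ⟨t, rfl⟩ := hj
  induction t with
  | zero => simp [lucasU]
  | succ t ih =>
    rw [mul_add_one, add_comm, dvd_add_iff' hq (not_dvd_Q hq hco hm h) h]
    exact ih

end Prime

theorem lucasU_binet {R : Type*} [CommRing R] {a b : R} (hs : a + b = P) (hp : a * b = Q)
    (n : ℕ) : (a - b) * (lucasU P Q n : R) = a ^ n - b ^ n := by
  induction n using Nat.twoStepInduction with
  | zero => simp [lucasU]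
  | one => simp [lucasU]
  | more n h1 h2 =>
    rw [lucasU]
    push_cast
    rw [← hs, ← hp]
    linear_combination (a + b) * h2 - a * b * h1

theorem lucasU_double_root {R : Type*} [CommRing R] {a : R} (hs : a + a = P) (hp : a * a = Q)
    (n : ℕ) (hn : 0 < n) : (lucasU P Q n : R) = n * a ^ (n - 1) := by
  obtain ⟨n, rfl⟩ : ∃ m, n = m + 1 := ⟨n - 1, by omega⟩
  rw [Nat.add_sub_cancel, Nat.cast_add_one]
  clear hn
  induction n using Nat.twoStepInduction with
  | zero => simp [lucasU]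
  | one => simp [lucasU, ← hs]; ring
  | more n h1 h2 =>
    rw [lucasU]
    push_cast
    rw [← hs, ← hp, h2, h1]
    push_cast
    ring

/-- The rank of apparition. -/
theorem exists_rank (hco : IsCoprime P Q) {q : ℕ} (hq : q.Prime) {n : ℕ} (hn : 0 < n)
    (h : (q : ℤ) ∣ lucasU P Q n) :
    ∃ r, 2 ≤ r ∧ r ≤ n ∧ (∀ j, (q : ℤ) ∣ lucasU P Q j ↔ r ∣ j) ∧
      ((r ∣ q - 1 ∨ r ∣ q + 1) ∨ (r = q ∧ (q : ℤ) ∣ P ^ 2 - 4 * Q)) := by
  classical
  have hQ := not_dvd_Q hq hco hn h
  have hex : ∃ j, 0 < j ∧ (q : ℤ) ∣ lucasU P Q j := ⟨n, hn, h⟩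
  set r := Nat.find hex
  obtain ⟨hr0, hr⟩ : 0 < r ∧ (q : ℤ) ∣ lucasU P Q r := Nat.find_spec hex
  have hiff : ∀ j, (q : ℤ) ∣ lucasU P Q j ↔ r ∣ j := fun j => by
    refine ⟨fun hj => ?_, dvd_of_dvd_index hq hco hr0 hr⟩
    have h' := (dvd_add_iff' hq hQ (dvd_of_dvd_index hq hco hr0 hr (dvd_mul_right r (j / r)))
      (j % r)).1 (by rwa [Nat.div_add_mod])
    exact Nat.dvd_of_mod_eq_zero (Nat.eq_zero_of_not_pos fun h0 =>
      absurd (Nat.find_min' hex ⟨h0, h'⟩) (not_le.2 (Nat.mod_lt _ hr0)))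
  refine ⟨r, ?_, Nat.find_min' hex ⟨hn, h⟩, hiff, ?_⟩
  · by_contra hlt
    obtain hr1 : r = 1 := by omega
    rw [hr1, lucasU] at hr
    exact hq.one_lt.ne' (Nat.dvd_one.1 (Int.natCast_dvd_natCast.1 (by exact_mod_cast hr)))
  have := Fact.mk hq
  let K := AlgebraicClosure (ZMod q)
  have hz : ∀ z : ℤ, (z : K) = 0 ↔ (q : ℤ) ∣ z := CharP.intCast_eq_zero_iff K q
  have : ExpChar K q := .prime hq
  obtain ⟨a, ha⟩ := IsAlgClosed.exists_root (k := K)
    (Polynomial.X ^ 2 - Polynomial.C (P : K) * Polynomial.X + Polynomial.C (Q : K))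
    (by
      have : (Polynomial.X ^ 2 - Polynomial.C (P : K) * Polynomial.X +
        Polynomial.C (Q : K)).degree = 2 := by compute_degree!
      rw [this]
      norm_num)
  simp only [Polynomial.IsRoot, Polynomial.eval_add, Polynomial.eval_sub, Polynomial.eval_pow,
    Polynomial.eval_X, Polynomial.eval_mul, Polynomial.eval_C] at ha
  set b : K := P - a
  have hs : a + b = P := by simp [b]
  have hp : a * b = Q := by linear_combination (-1 : K) * ha
  have hQ' : a * b ≠ 0 := by rw [hp, Ne, hz]; exact hQ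
  have hfrob : a ^ q * a ^ q - (P : K) * a ^ q + Q = 0 := by
    have h' := congrArg (frobenius K q) ha
    rw [map_add, map_sub, map_mul, map_intCast, map_intCast, map_pow, map_zero, frobenius_def] at h'
    linear_combination h'
  have hfsum : a ^ q + b ^ q = P := by
    have h' := congrArg (frobenius K q) hs
    rwa [map_add, map_intCast, frobenius_def, frobenius_def] at h'
  by_cases hab : a = b
  · refine Or.inr ⟨?_, (hz _).1 ?_⟩
    swap
    · rw [Int.cast_sub, Int.cast_mul, Int.cast_pow, ← hs, ← hp, hab, Int.cast_ofNat]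
      ring
    have hdvd : r ∣ q := (hiff q).1 ((hz _).1 (by
      rw [lucasU_double_root (hab ▸ hs) (hab ▸ hp) q hq.pos, CharP.cast_eq_zero, zero_mul]))
    refine (hq.eq_one_or_self_of_dvd r hdvd).resolve_left fun h1 => ?_
    rw [h1, lucasU] at hr
    exact hq.one_lt.ne' (Nat.dvd_one.1 (Int.natCast_dvd_natCast.1 (by exact_mod_cast hr)))
  refine Or.inl ?_
  have key : ∀ j, a ^ j = b ^ j → r ∣ j := fun j hj => (hiff j).1 ((hz _).1 (by
    have h' := lucasU_binet hs hp j
    rw [hj, sub_self, mul_eq_zero] at h'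
    exact h'.resolve_left (sub_ne_zero.2 hab)))
  rcases mul_eq_zero.1 (show (a ^ q - a) * (a ^ q - b) = 0 by
    linear_combination hfrob + (-(a ^ q)) * hs + hp) with e | e
  · refine Or.inl (key _ ?_)
    have hb : b ^ q = b := by linear_combination hfsum - hs - e
    have one : ∀ c : K, c ≠ 0 → c ^ q = c → c ^ (q - 1) = 1 := fun c hc h => by
      rw [← pow_sub_one_mul hq.ne_zero] at h
      exact (mul_eq_right₀ hc).1 h
    rw [one a (left_ne_zero_of_mul hQ') (sub_eq_zero.1 e), one b (right_ne_zero_of_mul hQ') hb]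
  · refine Or.inr (key _ ?_)
    have hb : b ^ q = a := by linear_combination hfsum - hs - e
    rw [pow_succ, pow_succ, hb, sub_eq_zero.1 e, mul_comm]

theorem pow_expansion' {R : Type*} [CommRing R] (a y : R) (k : ℕ) :
    ∃ z, (a + y) ^ (k + 2) = a ^ (k + 2) + ((k + 2 : ℕ) : R) * a ^ (k + 1) * y +
      (((k + 2).choose 2 : ℕ) : R) * a ^ k * y ^ 2 + y ^ 3 * z := by
  induction k with
  | zero =>
    refine ⟨0, ?_⟩
    simp only [zero_add, Nat.choose_self, Nat.cast_one, Nat.cast_ofNat, pow_one, pow_zero]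
    ring
  | succ k ih =>
    obtain ⟨z, hz⟩ := ih
    refine ⟨z * (a + y) + (((k + 2).choose 2 : ℕ) : R) * a ^ k, ?_⟩
    have hc : (k + 2 + 1).choose 2 = (k + 2) + (k + 2).choose 2 := by
      simpa using Nat.choose_succ_succ' (k + 2) 1
    rw [show k + 1 + 2 = k + 2 + 1 by omega, pow_succ, hz, hc]
    push_cast
    ring

theorem lucasU_mul_eq (P Q : ℤ) (m k : ℕ) : ∃ z : ℤ, lucasU P Q (m * (k + 2)) = lucasU P Q m *
    (((k + 2 : ℕ) : ℤ) * rePow P Q m ^ (k + 1) +
      (((k + 2).choose 2 : ℕ) : ℤ) * rePow P Q m ^ k * P * lucasU P Q m +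
      lucasU P Q m ^ 2 * z) := by
  obtain ⟨z, hz⟩ := pow_expansion' ((rePow P Q m : ℤ) : LucasRing P Q)
    ((lucasU P Q m : ℤ) * root P Q) k
  have e : root P Q ^ m = (rePow P Q m : LucasRing P Q) + (lucasU P Q m : ℤ) * root P Q := by
    rw [QuadraticAlgebra.ext_iff]
    simp [rePow, im_root_pow, re_intCast, im_intCast,
      show (root P Q).re = 0 from rfl, show (root P Q).im = 1 from rfl]
  rw [← e, ← pow_mul, mul_pow, mul_pow] at hz
  have h := congrArg im hz
  rw [im_root_pow] at h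
  simp only [← Int.cast_pow, ← Int.cast_natCast (R := LucasRing P Q), ← Int.cast_mul, im_add,
    im_mul, re_intCast, im_intCast, Int.cast_id, re_mul, mul_zero, zero_mul, add_zero,
    zero_add] at h
  refine ⟨(root P Q ^ 3 * z).im, ?_⟩
  simp only [root, pow_two, pow_three, re_mul, im_mul, mul_zero, add_zero, zero_add, zero_mul,
    mul_one, one_mul] at h ⊢
  linear_combination h

/-- Lifting the exponent: at `p = q` exactly one factor `q` is gained, if `m` is even for
`q = 2`. -/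
theorem dvd_of_dvd_lucasU_mul (hco : IsCoprime P Q) {q p m v : ℕ} (hq : q.Prime) (hp : p.Prime)
    (hm : 0 < m) (hqm : (q : ℤ) ∣ lucasU P Q m) (hev : p = 2 → q = 2 → Even m)
    (h : (q : ℤ) ^ v ∣ lucasU P Q (m * p)) :
    (q : ℤ) ^ v ∣ (if p = q then (q : ℤ) else 1) * lucasU P Q m := by
  obtain ⟨k, rfl⟩ : ∃ k, p = k + 2 := ⟨p - 2, by have := hp.two_le; omega⟩
  obtain ⟨z, hz⟩ := lucasU_mul_eq P Q m k
  set a := rePow P Q m
  set b := lucasU P Q m with hb
  have hQ := not_dvd_Q hq hco hm hqm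
  have hcop : ¬(q : ℤ) ∣ a := not_dvd_rePow hq hQ hqm
  have hqP : Prime (q : ℤ) := Nat.prime_iff_prime_int.1 hq
  have key : ∀ c e : ℤ, lucasU P Q (m * (k + 2)) = e * b * c → ¬(q : ℤ) ∣ c →
      (q : ℤ) ^ v ∣ e * b := fun c e hc hqc =>
    ((hqP.coprime_iff_not_dvd.2 hqc).pow_left).dvd_of_dvd_mul_right (hc ▸ h)
  split_ifs with hpq
  · rcases hq.eq_two_or_odd' with h2 | hodd
    · obtain rfl : k = 0 := by omega
      subst h2
      obtain ⟨l, hl⟩ := hev hpq rfl
      obtain ⟨d, hd⟩ : (2 : ℤ) ∣ b := by simpa using hqm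
      have hd' : (2 : ℤ) ∣ P * d := by
        by_cases hP : (2 : ℤ) ∣ P
        · exact hP.mul_right _
        have e2 := lucasU_two_mul P Q l
        rw [two_mul l, ← hl, ← hb, hd] at e2
        rcases Int.prime_two.dvd_or_dvd (e2 ▸ dvd_mul_right 2 d :
          (2 : ℤ) ∣ lucasU P Q l * (2 * rePow P Q l + P * lucasU P Q l)) with h' | h'
        · obtain ⟨u, hu⟩ := h'
          rw [hu] at e2
          have hd2 : d = 2 * (u * (rePow P Q l + P * u)) := by linarith
          exact hd2 ▸ (dvd_mul_right 2 _).mul_left P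
        · have hPl := (Int.dvd_add_right (dvd_mul_right 2 _)).1 h'
          obtain ⟨u, hu⟩ := (Int.prime_two.dvd_or_dvd hPl).resolve_left hP
          rw [hu] at e2
          have hd2 : d = 2 * (u * (rePow P Q l + P * u)) := by linarith
          exact hd2 ▸ (dvd_mul_right 2 _).mul_left P
      refine key (a + P * d) _ ?_ fun h' => hcop (by simpa using (Int.dvd_add_left hd').1 h')
      rw [show m * (0 + 2) = 2 * m by ring, lucasU_two_mul, ← hb, hd]
      push_cast
      ring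
    · obtain ⟨i, hi⟩ := hodd
      have hch : (k + 2).choose 2 = (k + 2) * i := by
        rw [Nat.choose_two_right, show k + 2 = 2 * i + 1 by omega, Nat.add_sub_cancel, ← mul_assoc,
          mul_comm (2 * i + 1) 2, mul_assoc, Nat.mul_div_cancel_left _ two_pos]
      obtain ⟨s, hs⟩ := hqm
      refine key (a ^ (k + 1) + (i : ℤ) * a ^ k * P * b + b * s * z) q
        (by rw [hz, hch, hs, ← hpq]; push_cast; ring) fun h => hcop ?_
      have hdb : (q : ℤ) ∣ b := Dvd.intro s hs.symm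
      rw [add_assoc, Int.dvd_add_left ((hdb.mul_left _).add ((hdb.mul_right s).mul_right z))] at h
      exact hqP.dvd_of_dvd_pow h
  · refine key (((k + 2 : ℕ) : ℤ) * a ^ (k + 1) + (((k + 2).choose 2 : ℕ) : ℤ) * a ^ k * P * b +
      b ^ 2 * z) 1 (by rw [hz]; ring) fun h => ?_
    rw [add_assoc, Int.dvd_add_left ((hqm.mul_left _).add
      ((dvd_pow hqm two_ne_zero).mul_right z))] at h
    rcases hqP.dvd_or_dvd h with h'' | h''
    · exact hpq ((Nat.prime_dvd_prime_iff_eq hq hp).1 (Int.natCast_dvd_natCast.1 h'')).symm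
    · exact hcop (hqP.dvd_of_dvd_pow h'')

end FA.RealLucasPrimitive
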