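import Fermat.Agent.FibonacciPrimitive.Cyclotomic
import Fermat.Agent.RealLucasPrimitive.Basic

/-!
# The cyclotomic parts of a real Lucas sequence

`U n ^ 2` is the product over the divisors `d ≠ 1` of the norms
`g d = ∏ (P² - (2 + 2 re ζ) Q)`, `ζ` over the primitive `d`-th roots of unity. When
`P² - 4Q > 0` every factor is at least the one of `(1, -1)` or the one of `(3, 2)`.
-/

set_option autoImplicit false

noncomputable section

namespace FA.RealLucasPrimitive

open Finset Polynomial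

/-- The hypotheses of Carmichael's theorem. -/
structure IsRealPair (P Q : ℤ) : Prop where
  coprime : IsCoprime P Q
  left_ne : P ≠ 0
  right_ne : Q ≠ 0
  disc_pos : 0 < P ^ 2 - 4 * Q

theorem isRealPair_one_neg_one : IsRealPair 1 (-1) :=
  ⟨isCoprime_one_left, one_ne_zero, by norm_num, by norm_num⟩

theorem isRealPair_three_two : IsRealPair 3 2 :=
  ⟨⟨1, -1, by norm_num⟩, three_ne_zero, two_ne_zero, by norm_num⟩

/-- The homogeneous cyclotomic value at `(ω, P - ω)`. -/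
def cycValue (P Q : ℤ) (n : ℕ) : LucasRing P Q :=
  ∑ i ∈ range (n.totient + 1),
    ((cyclotomic n ℤ).coeff i : LucasRing P Q) * root P Q ^ i * (P - root P Q) ^ (n.totient - i)

/-- Its norm, up to sign. -/
def normPart (P Q : ℤ) (n : ℕ) : ℕ := (QuadraticAlgebra.norm (cycValue P Q n)).natAbs

/-- The real homogeneous cyclotomic value. -/
def homReal (n : ℕ) (x y : ℝ) : ℝ :=
  ∑ i ∈ range (n.totient + 1), ((cyclotomic n ℤ).coeff i : ℝ) * x ^ i * y ^ (n.totient - i)

theorem homReal_eq (n : ℕ) (x : ℝ) {y : ℝ} (hy : y ≠ 0) :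
    homReal n x y = y ^ n.totient * (cyclotomic n ℝ).eval (x / y) := by
  rw [eval_eq_sum_range' (n := n.totient + 1) (by rw [natDegree_cyclotomic]; omega), homReal,
    mul_sum]
  refine sum_congr rfl fun i hi => ?_
  have hc : (cyclotomic n ℝ).coeff i = ((cyclotomic n ℤ).coeff i : ℝ) := by
    rw [← map_cyclotomic n (Int.castRingHom ℝ), coeff_map, eq_intCast]
  rw [hc, div_pow, pow_sub₀ y hy (by simpa using Nat.le_of_lt_succ (mem_range.1 hi))]
  field_simp

theorem prod_homReal {n : ℕ} (hn : 0 < n) (x : ℝ) {y : ℝ} (hy : y ≠ 0) :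
    ∏ d ∈ n.divisors, homReal d x y = x ^ n - y ^ n := by
  simp only [homReal_eq _ x hy, prod_mul_distrib, prod_pow_eq_pow_sum, Nat.sum_totient,
    ← eval_prod, prod_cyclotomic_eq_X_pow_sub_one hn, eval_sub, eval_pow, eval_X, eval_one]
  rw [div_pow, mul_sub, mul_one, mul_div_cancel₀ _ (pow_ne_zero _ hy)]

theorem normSq_root {n : ℕ} (hn : 0 < n) {ζ : ℂ} (hζ : ζ ∈ primitiveRoots n ℂ) :
    ζ.re ^ 2 + ζ.im ^ 2 = 1 := by
  have h := ((mem_primitiveRoots hn).1 hζ).norm'_eq_one hn.ne'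
  rw [Complex.norm_def, Real.sqrt_eq_one, Complex.normSq_apply] at h
  linear_combination h

theorem homReal_sq {n : ℕ} (hn : 0 < n) (x : ℝ) {y : ℝ} (hy : y ≠ 0) :
    homReal n x y ^ 2 = ∏ ζ ∈ primitiveRoots n ℂ, (x ^ 2 + y ^ 2 - 2 * ζ.re * (x * y)) := by
  have hy' : (y : ℂ) ≠ 0 := Complex.ofReal_ne_zero.2 hy
  have hC : (homReal n x y : ℂ) = ∏ ζ ∈ primitiveRoots n ℂ, ((x : ℂ) - ζ * y) := by
    rw [homReal_eq n x hy, Complex.ofReal_mul, Complex.ofReal_pow, ← Complex.ofRealHom_eq_coe,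
      ← Complex.ofRealHom_eq_coe, ← eval_map_apply, map_cyclotomic,
      cyclotomic_eq_prod_X_sub_primitiveRoots (Complex.isPrimitiveRoot_exp n hn.ne'), eval_prod,
      ← Complex.card_primitiveRoots n, ← prod_const, ← prod_mul_distrib]
    refine prod_congr rfl fun ζ _ => ?_
    simp only [eval_sub, eval_X, eval_C, Complex.ofRealHom_eq_coe, Complex.ofReal_div]
    field_simp
  have h := congrArg Complex.normSq hC
  rw [Complex.normSq_ofReal, map_prod] at h
  rw [sq, h]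
  refine prod_congr rfl fun ζ hζ => ?_
  simp only [Complex.normSq_apply, Complex.sub_re, Complex.sub_im, Complex.mul_re, Complex.mul_im,
    Complex.ofReal_re, Complex.ofReal_im]
  linear_combination y ^ 2 * normSq_root hn hζ

/-- One factor. -/
def factor (P Q : ℤ) (ζ : ℂ) : ℝ := (P : ℝ) ^ 2 - (2 + 2 * ζ.re) * Q

theorem weight_mem {n : ℕ} (hn : 0 < n) {ζ : ℂ} (hζ : ζ ∈ primitiveRoots n ℂ) :
    0 ≤ 2 + 2 * ζ.re ∧ 2 + 2 * ζ.re ≤ 4 := by
  have h := normSq_root hn hζ
  constructor <;> nlinarith [sq_nonneg ζ.im, sq_nonneg (ζ.re + 1), sq_nonneg (ζ.re - 1)]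

theorem weight_pos {n : ℕ} (hn : 3 ≤ n) {ζ : ℂ} (hζ : ζ ∈ primitiveRoots n ℂ) :
    0 < 2 + 2 * ζ.re := by
  refine (weight_mem (by omega) hζ).1.lt_of_ne' fun h => ?_
  have hre : ζ.re = -1 := by linarith
  have him := normSq_root (by omega) hζ
  rw [hre] at him
  have him' : ζ.im = 0 := by nlinarith
  have hneg : ζ = -1 := Complex.ext (by simpa using hre) (by simpa using him')
  have hd : n ∣ 2 := ((mem_primitiveRoots (by omega)).1 hζ).dvd_of_pow_eq_one 2 (by
    rw [hneg, neg_one_sq])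
  exact absurd (Nat.le_of_dvd (by norm_num) hd) (by omega)

variable {P Q : ℤ}

theorem sq_homReal_eq_prod {n : ℕ} (hn : 0 < n) {x y : ℝ} (hs : x + y = P) (hp : x * y = Q)
    (hy : y ≠ 0) : homReal n x y ^ 2 = ∏ ζ ∈ primitiveRoots n ℂ, factor P Q ζ := by
  rw [homReal_sq hn x hy]
  refine prod_congr rfl fun ζ _ => ?_
  rw [factor, ← hs, ← hp]
  ring

/-- The place `ω ↦ r`. -/
def placeHom (r : ℝ) (hr : r * r = -(Q : ℝ) + P * r) : LucasRing P Q →+* ℝ :=
  (QuadraticAlgebra.lift (R := ℤ) (a := -Q) (b := P) ⟨r, by simpa using hr⟩).toRingHom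

theorem placeHom_apply (r : ℝ) (hr : r * r = -(Q : ℝ) + P * r) (z : LucasRing P Q) :
    placeHom r hr z = z.re + z.im * r := by
  simp [placeHom, QuadraticAlgebra.lift]

theorem placeHom_cycValue (r s : ℝ) (hr : r * r = -(Q : ℝ) + P * r) (hs : r + s = P) (n : ℕ) :
    placeHom r hr (cycValue P Q n) = homReal n r s := by
  have hroot : placeHom r hr (root P Q) = r := by simp [placeHom_apply, root]
  simp only [cycValue, homReal, map_sum, map_mul, map_pow, map_sub, map_intCast, hroot]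
  rw [show (P : ℝ) - r = s by linarith]

/-- The norm as a product. -/
theorem normPart_eq_prod (hD : 0 < P ^ 2 - 4 * Q) (hQ : Q ≠ 0) {n : ℕ} (hn : 0 < n) :
    (normPart P Q n : ℝ) = ∏ ζ ∈ primitiveRoots n ℂ, factor P Q ζ := by
  set s := √((P : ℝ) ^ 2 - 4 * Q) with hs
  have hs2 : s ^ 2 = (P : ℝ) ^ 2 - 4 * Q := Real.sq_sqrt (by exact_mod_cast hD.le)
  set x : ℝ := (P + s) / 2 with hx
  set y : ℝ := (P - s) / 2 with hy
  have hsum : x + y = P := by rw [hx, hy]; ring
  have hprod : x * y = Q := by rw [hx, hy]; linear_combination (-1 / 4 : ℝ) * hs2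
  have hQR : (Q : ℝ) ≠ 0 := Int.cast_ne_zero.2 hQ
  have hx0 : x ≠ 0 := fun h => hQR (by rw [← hprod, h, zero_mul])
  have hy0 : y ≠ 0 := fun h => hQR (by rw [← hprod, h, mul_zero])
  have hrx : x * x = -(Q : ℝ) + P * x := by rw [← hsum, ← hprod]; ring
  have hry : y * y = -(Q : ℝ) + P * y := by rw [← hsum, ← hprod]; ring
  have hN : ((QuadraticAlgebra.norm (cycValue P Q n) : ℤ) : ℝ) =
      homReal n x y * homReal n y x := by
    rw [← placeHom_cycValue x y hrx hsum, ← placeHom_cycValue y x hry (by rw [add_comm, hsum]),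
      placeHom_apply, placeHom_apply, QuadraticAlgebra.norm_def]
    push_cast
    rw [← hsum, ← hprod]
    ring
  have h1 := sq_homReal_eq_prod hn hsum hprod hy0
  have h2 := sq_homReal_eq_prod hn (add_comm x y ▸ hsum) (mul_comm x y ▸ hprod) hx0
  have hpos : 0 ≤ ∏ ζ ∈ primitiveRoots n ℂ, factor P Q ζ := h1 ▸ sq_nonneg _
  rw [normPart, Nat.cast_natAbs, Int.cast_abs, hN, ← pow_left_inj₀ (abs_nonneg _) hpos two_ne_zero,
    sq_abs, mul_pow, h1, h2, sq]

theorem factor_pos (h : IsRealPair P Q) {n : ℕ} (hn : 0 < n) {ζ : ℂ}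
    (hζ : ζ ∈ primitiveRoots n ℂ) : 0 < factor P Q ζ := by
  obtain ⟨t0, t4⟩ := weight_mem hn hζ
  have hD : (0 : ℝ) < (P : ℝ) ^ 2 - 4 * Q := by exact_mod_cast h.disc_pos
  have hP : (0 : ℝ) < (P : ℝ) ^ 2 := by
    have : (P : ℝ) ≠ 0 := Int.cast_ne_zero.2 h.left_ne
    positivity
  rw [factor]
  rcases le_or_gt (Q : ℝ) 0 with hQ | hQ <;> nlinarith

theorem normPart_pos (h : IsRealPair P Q) {n : ℕ} (hn : 0 < n) : 0 < normPart P Q n := by
  have h' : (0 : ℝ) < normPart P Q n := by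
    rw [normPart_eq_prod h.disc_pos h.right_ne hn]
    exact prod_pos fun ζ hζ => factor_pos h hn hζ
  exact_mod_cast h'

/-- `∏_{d ∣ n, d ≠ 1} g d = U n ^ 2`. -/
theorem prod_normPart (h : IsRealPair P Q) {n : ℕ} (hn : 0 < n) :
    ∏ d ∈ n.divisors.erase 1, normPart P Q d = (lucasU P Q n).natAbs ^ 2 := by
  set s := √((P : ℝ) ^ 2 - 4 * Q) with hs
  have hD : (0 : ℝ) < (P : ℝ) ^ 2 - 4 * Q := by exact_mod_cast h.disc_pos
  have hs2 : s ^ 2 = (P : ℝ) ^ 2 - 4 * Q := Real.sq_sqrt hD.le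
  set x : ℝ := (P + s) / 2 with hx
  set y : ℝ := (P - s) / 2 with hy
  have hsum : x + y = P := by rw [hx, hy]; ring
  have hprod : x * y = Q := by rw [hx, hy]; linear_combination (-1 / 4 : ℝ) * hs2
  have hy0 : y ≠ 0 := fun h0 => h.right_ne (by
    have : (Q : ℝ) = 0 := by rw [← hprod, h0, mul_zero]
    exact_mod_cast this)
  have hall : ∏ d ∈ n.divisors, (normPart P Q d : ℝ) =
      ((P : ℝ) ^ 2 - 4 * Q) * (lucasU P Q n : ℝ) ^ 2 := by
    rw [prod_congr rfl fun d hd => (normPart_eq_prod h.disc_pos h.right_ne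
      (Nat.pos_of_mem_divisors hd)).trans
        (sq_homReal_eq_prod (Nat.pos_of_mem_divisors hd) hsum hprod hy0).symm,
      prod_pow, prod_homReal hn x hy0, ← lucasU_binet hsum hprod n, mul_pow,
      show x - y = s by rw [hx, hy]; ring, hs2]
  have h1 : (normPart P Q 1 : ℝ) = (P : ℝ) ^ 2 - 4 * Q := by
    rw [normPart_eq_prod h.disc_pos h.right_ne one_pos, IsPrimitiveRoot.primitiveRoots_one,
      prod_singleton, factor,
      Complex.one_re]
    ring
  rw [← mul_prod_erase _ _ (Nat.one_mem_divisors.2 hn.ne'), h1] at hall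
  have h2 := mul_left_cancel₀ hD.ne' hall
  rw [← Nat.cast_inj (R := ℝ)]
  push_cast
  rw [h2, Nat.cast_natAbs, Int.cast_abs, sq_abs]

theorem lucasU_ne_zero (h : IsRealPair P Q) {n : ℕ} (hn : 0 < n) : lucasU P Q n ≠ 0 := fun h0 => by
  have h' := prod_normPart h hn
  rw [h0, Int.natAbs_zero, zero_pow two_ne_zero, prod_eq_zero_iff] at h'
  obtain ⟨d, hd, hd'⟩ := h'
  exact (normPart_pos h (Nat.pos_of_mem_divisors (mem_of_mem_erase hd))).ne' hd'

/-- **The two extreme sequences.** -/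
theorem normPart_le (h : IsRealPair P Q) {n : ℕ} (hn : 3 ≤ n) :
    normPart 3 2 n ≤ normPart P Q n ∨ (normPart 1 (-1) n ≤ normPart P Q n ∧
      ((P ^ 2 = 1 ∧ Q = -1) ∨ normPart 1 (-1) n < normPart P Q n)) := by
  have hn0 : 0 < n := by omega
  have eq : ∀ {P Q : ℤ}, IsRealPair P Q →
      (normPart P Q n : ℝ) = ∏ ζ ∈ primitiveRoots n ℂ, factor P Q ζ :=
    fun h => normPart_eq_prod h.disc_pos h.right_ne hn0
  have hP1 : 1 ≤ P ^ 2 := by
    have := h.left_ne
    have : 0 < P ^ 2 := by positivity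
    omega
  rcases lt_or_gt_of_ne h.right_ne with hQ | hQ
  · right
    have hterm : ∀ ζ ∈ primitiveRoots n ℂ, factor 1 (-1) ζ ≤ factor P Q ζ ∧
        (P ^ 2 = 1 ∧ Q = -1 ∨ factor 1 (-1) ζ < factor P Q ζ) := fun ζ hζ => by
      have ht := weight_pos hn hζ
      have hQ' : (Q : ℝ) ≤ -1 := by exact_mod_cast (by omega : Q ≤ -1)
      have hP' : (1 : ℝ) ≤ (P : ℝ) ^ 2 := by exact_mod_cast hP1
      refine ⟨by simp only [factor]; push_cast; nlinarith, or_iff_not_imp_left.2 fun hne => ?_⟩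
      rcases (show 2 ≤ P ^ 2 ∨ Q ≤ -2 by omega) with h2 | h2
      · have h2' : (2 : ℝ) ≤ (P : ℝ) ^ 2 := by exact_mod_cast h2
        simp only [factor]
        push_cast
        nlinarith
      · have h2' : (Q : ℝ) ≤ -2 := by exact_mod_cast h2
        simp only [factor]
        push_cast
        nlinarith
    have h1 := eq isRealPair_one_neg_one
    refine ⟨?_, or_iff_not_imp_left.2 fun hne => ?_⟩
    · rw [← Nat.cast_le (α := ℝ), h1, eq h]
      exact prod_le_prod (fun ζ hζ => (factor_pos isRealPair_one_neg_one hn0 hζ).le)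
        fun ζ hζ => (hterm ζ hζ).1
    · rw [← Nat.cast_lt (α := ℝ), h1, eq h]
      exact prod_lt_prod_of_nonempty (fun ζ hζ => factor_pos isRealPair_one_neg_one hn0 hζ)
        (fun ζ hζ => (hterm ζ hζ).2.resolve_left hne)
        ⟨_, (mem_primitiveRoots hn0).2 (Complex.isPrimitiveRoot_exp n hn0.ne')⟩
  · left
    rw [← Nat.cast_le (α := ℝ), eq isRealPair_three_two, eq h]
    refine prod_le_prod (fun ζ hζ => (factor_pos isRealPair_three_two hn0 hζ).le) fun ζ hζ => ?_
    obtain ⟨t0, t4⟩ := weight_mem hn0 hζ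
    have hD := h.disc_pos
    have h9 : 9 ≤ P ^ 2 := by
      by_contra h'
      have h3 : P ≤ 2 := by nlinarith
      have h3' : -2 ≤ P := by nlinarith
      interval_cases P <;> omega
    have h9' : (9 : ℝ) ≤ (P : ℝ) ^ 2 := by exact_mod_cast h9
    have hQ4 : 4 * (Q : ℝ) ≤ (P : ℝ) ^ 2 - 1 := by
      exact_mod_cast (by omega : 4 * Q ≤ P ^ 2 - 1)
    simp only [factor]
    push_cast
    nlinarith [mul_le_mul_of_nonneg_left hQ4 t0,
      mul_nonneg (sub_nonneg.2 t4) (sub_nonneg.2 h9')]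

theorem quarter_le_prod (n : ℕ) :
    1 / 4 + (1 / 2 : ℝ) ^ (n + 2) ≤ ∏ d ∈ Icc 1 (n + 1), (1 - (1 / 2 : ℝ) ^ d) := by
  induction n with
  | zero => norm_num
  | succ n ih =>
    have hy : (0 : ℝ) ≤ (1 / 2) ^ (n + 2) := by positivity
    have hle : (1 / 2 : ℝ) ^ (n + 2) ≤ 1 / 4 := by
      refine (pow_le_pow_of_le_one (by norm_num) (by norm_num) (le_add_self : 2 ≤ n + 2)).trans ?_
      norm_num
    rw [prod_Icc_succ_top (by omega)]
    refine le_trans ?_ (mul_le_mul_of_nonneg_right ih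
      (sub_nonneg.2 (pow_le_one₀ (by norm_num) (by norm_num))))
    rw [pow_succ (1 / 2 : ℝ) (n + 1 + 1)]
    nlinarith

/-- If `∏_{d ∣ n} f d = 1 - 2 ^ -n` for all `n`, then `f n ≥ 1 / 4`. -/
theorem quarter_le_of_prod_eq {f : ℕ → ℝ}
    (hf : ∀ n > 0, ∏ d ∈ n.divisors, f d = 1 - (1 / 2 : ℝ) ^ n) {n : ℕ} (hn : 0 < n) :
    1 / 4 ≤ f n := by
  have hlt : ∀ d : ℕ, 0 < d → (1 / 2 : ℝ) ^ d ≤ 1 / 2 := fun d hd =>
    pow_le_of_le_one (by norm_num) (by norm_num) hd.ne'
  have hg : ∀ d : ℕ, 0 < d → 1 - (1 / 2 : ℝ) ^ d ≠ 0 := fun d hd => by linarith [hlt d hd]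
  have hf0 : ∀ d : ℕ, 0 < d → f d ≠ 0 := fun d hd h => hg d hd <| by
    rw [← hf d hd, prod_eq_zero (Nat.mem_divisors_self d hd.ne') h]
  rw [← (ArithmeticFunction.prod_eq_iff_prod_pow_moebius_eq_of_nonzero hf0 hg).1 hf n hn,
    Nat.prod_divisorsAntidiagonal'
      (f := fun a b => (1 - (1 / 2 : ℝ) ^ b) ^ ArithmeticFunction.moebius a)]
  obtain ⟨m, rfl⟩ : ∃ m, n = m + 1 := ⟨n - 1, by omega⟩
  refine le_trans (le_trans (le_add_of_nonneg_right (by positivity)) (quarter_le_prod m)) ?_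
  refine le_trans (prod_le_prod_of_subset_of_le_one (s := (m + 1).divisors) (fun d hd =>
    mem_Icc.2 ⟨Nat.pos_of_mem_divisors hd, Nat.divisor_le hd⟩) (fun d hd => ?_) fun d _ _ => ?_)
      (prod_le_prod (fun d hd => ?_) fun d hd => ?_)
  · linarith [hlt d (mem_Icc.1 hd).1]
  · linarith [pow_nonneg (show (0 : ℝ) ≤ 1 / 2 by norm_num) d]
  · linarith [hlt d (Nat.pos_of_mem_divisors hd)]
  · have h1 := hlt d (Nat.pos_of_mem_divisors hd)
    have h0 : (0 : ℝ) ≤ (1 / 2) ^ d := by positivity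
    rcases Int.abs_le_one_iff.1
      (ArithmeticFunction.abs_moebius_le_one (n := (m + 1) / d)) with e | e | e
    · rw [e, zpow_zero]
      linarith
    · rw [e, zpow_one]
    · rw [e, zpow_neg_one, ← one_div, le_div_iff₀ (by linarith)]
      nlinarith

theorem lower_of_homReal (h : IsRealPair P Q) {n : ℕ} (hn : 0 < n) {x y : ℝ} (hs : x + y = P)
    (hp : x * y = Q) (hy : y ≠ 0) {b : ℝ} (hb : 0 ≤ b) (hle : b ≤ |homReal n x y|) :
    b ^ 2 ≤ (normPart P Q n : ℝ) := by
  rw [normPart_eq_prod h.disc_pos h.right_ne hn, ← sq_homReal_eq_prod hn hs hp hy,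
    ← sq_abs (homReal n x y)]
  exact pow_le_pow_left₀ hb hle 2

/-- The general lower bound. -/
theorem normPart_lower (h : IsRealPair P Q) {n : ℕ} (hn : 3 ≤ n) :
    ((8 / 5 : ℝ) ^ n.totient / 3) ^ 2 ≤ normPart P Q n := by
  have hn0 : 0 < n := by omega
  rcases normPart_le h hn with hle | ⟨hle, -⟩ <;> refine le_trans ?_ (Nat.cast_le.2 hle)
  · refine lower_of_homReal isRealPair_three_two hn0 (x := 2) (y := 1) (by norm_num) (by norm_num)
      one_ne_zero (by positivity) ?_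
    have hprod : ∀ m > 0, ∏ d ∈ m.divisors, |homReal d 2 1| / 2 ^ d.totient =
        1 - (1 / 2 : ℝ) ^ m := fun m hm => by
      rw [prod_div_distrib, ← abs_prod, prod_homReal hm _ one_ne_zero, one_pow,
        abs_of_nonneg (sub_nonneg.2 (one_le_pow₀ one_le_two)), prod_pow_eq_pow_sum, Nat.sum_totient,
        sub_div, div_self (pow_ne_zero _ two_ne_zero), one_div_pow]
    have h4 := quarter_le_of_prod_eq hprod hn0
    rw [le_div_iff₀ (by positivity)] at h4
    refine le_trans ?_ h4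
    have h2 : 2 ≤ n.totient := by
      obtain ⟨e, he⟩ := Nat.totient_even (show 2 < n by omega)
      have := Nat.totient_pos.2 hn0
      omega
    have hmono : (25 / 16 : ℝ) ≤ (5 / 4) ^ n.totient :=
      le_trans (by norm_num) (pow_le_pow_right₀ (by norm_num : (1 : ℝ) ≤ 5 / 4) h2)
    rw [show (2 : ℝ) ^ n.totient = (5 / 4) ^ n.totient * (8 / 5) ^ n.totient by
      rw [← mul_pow]; norm_num]
    have : (0 : ℝ) ≤ (8 / 5) ^ n.totient := by positivity
    nlinarith
  · have hφ : 0 < Real.goldenRatio := Real.goldenRatio_pos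
    refine lower_of_homReal isRealPair_one_neg_one hn0 (x := Real.goldenRatio)
      (y := Real.goldenConj) (by push_cast; exact Real.goldenRatio_add_goldenConj)
      (by push_cast; exact Real.goldenRatio_mul_goldenConj) Real.goldenConj_neg.ne
      (by positivity) ?_
    have hprod : ∀ m > 0, ∏ d ∈ m.divisors, |homReal d Real.goldenRatio Real.goldenConj| /
        Real.goldenRatio ^ d.totient = |1 - (Real.goldenConj / Real.goldenRatio) ^ m| :=
      fun m hm => by
      rw [prod_div_distrib, ← abs_prod, prod_homReal hm _ Real.goldenConj_neg.ne,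
        prod_pow_eq_pow_sum, Nat.sum_totient, ← abs_of_pos (pow_pos hφ m), ← abs_div,
        abs_of_pos (pow_pos hφ m), sub_div, div_self (pow_pos hφ m).ne', ← div_pow]
    have h3 := FibonacciPrimitive.third_le_of_prod_eq FibonacciPrimitive.abs_y_le hprod hn0
    rw [le_div_iff₀ (pow_pos hφ _)] at h3
    refine le_trans ?_ (by linarith : Real.goldenRatio ^ n.totient / 3 ≤ _)
    have h8 : (8 / 5 : ℝ) ≤ Real.goldenRatio := by
      have h : (11 / 5 : ℝ) ≤ √5 := Real.le_sqrt_of_sq_le (by norm_num)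
      rw [Real.goldenRatio]
      linarith
    gcongr

end FA.RealLucasPrimitive
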