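import Fermat.Agent.FibonacciPrimitive.Main
import Fermat.Agent.RealLucasPrimitive.Cyclotomic

/-!
# Carmichael's theorem for real Lucas sequences

Without a primitive prime the norm `g n` divides `c ^ 2`, `c` the product of the primes which can
gain at the step to `U n`. Beyond `n = 12` there is at most one, and it is too small.
-/

set_option autoImplicit false

noncomputable section

namespace FA.RealLucasPrimitive

open Finset

variable {P Q : ℤ} {n : ℕ}

/-- A prime which can gain at the step from `U (n / q)` to `U n`. -/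
def IsSpecialPrime (P Q : ℤ) (n q : ℕ) : Prop :=
  q ∈ n.primeFactors ∧ (q : ℤ) ∣ lucasU P Q (n / q) ∧
    ∀ p ∈ n.primeFactors, (q : ℤ) ∣ lucasU P Q (n / p) → p = q

theorem special_rank (hco : IsCoprime P Q) (hn : 0 < n) {q : ℕ} (hs : IsSpecialPrime P Q n q) :
    ∃ r, 2 ≤ r ∧ ((r ∣ q - 1 ∨ r ∣ q + 1) ∨ r = q) ∧ q * r ∣ n ∧
      ∀ p, p.Prime → p ≠ q → r * p ∣ n → False := by
  obtain ⟨hqn, hd, hall⟩ := hs
  have hq := Nat.prime_of_mem_primeFactors hqn
  have hpos : 0 < n / q := Nat.div_pos (Nat.le_of_dvd hn (Nat.dvd_of_mem_primeFactors hqn)) hq.pos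
  obtain ⟨r, hr2, -, hiff, hcase⟩ := exists_rank hco hq hpos hd
  refine ⟨r, hr2, hcase.imp_right And.left, ?_, fun p hp hne h => hne (hall p ?_ ?_)⟩
  · exact (Nat.mul_dvd_mul_left q ((hiff _).1 hd)).trans
      (Nat.mul_div_cancel' (Nat.dvd_of_mem_primeFactors hqn)).dvd
  · exact Nat.mem_primeFactors.2 ⟨hp, (dvd_mul_left p r).trans h, hn.ne'⟩
  · exact (hiff _).2 (Nat.dvd_div_of_mul_dvd (by rwa [mul_comm]))

theorem other_dvd_rank {q r : ℕ} (hqr : q * r ∣ n)
    (hall : ∀ p, p.Prime → p ≠ q → r * p ∣ n → False) {p : ℕ} (hp : p.Prime) (hne : p ≠ q)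
    (hpn : p ∣ n) : p ∣ r := by
  by_contra h
  exact hall p hp hne
    ((hp.coprime_iff_not_dvd.2 h).symm.mul_dvd_of_dvd_of_dvd ((dvd_mul_left r q).trans hqr) hpn)

theorem four_dvd_of_special_two (hco : IsCoprime P Q) (hn : 0 < n) (h6 : n ≠ 6)
    (hs : IsSpecialPrime P Q n 2) : 4 ∣ n := by
  obtain ⟨r, hr2, hcase, ⟨a, ha⟩, hall⟩ := special_rank hco hn hs
  have hr : r = 2 ∨ r = 3 := by
    rcases hcase with (h | h) | h
    · have := Nat.le_of_dvd one_pos h
      omega
    · exact Or.inr (((Nat.dvd_prime Nat.prime_three).1 h).resolve_left (by omega))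
    · exact Or.inl h
  rcases hr with rfl | rfl
  · exact ⟨a, ha⟩
  obtain ⟨p, hp, hpa⟩ := Nat.exists_prime_and_dvd (show a ≠ 1 by omega)
  rcases eq_or_ne p 2 with rfl | hne
  · obtain ⟨b, rfl⟩ := hpa
    exact ⟨3 * b, by rw [ha]; ring⟩
  · exact (hall p hp hne (ha ▸ Nat.mul_dvd_mul (by norm_num) hpa)).elim

theorem special_eq (hco : IsCoprime P Q) (hn : 0 < n) (h6 : n ≠ 6) (h12 : n ≠ 12) {q q' : ℕ}
    (hs : IsSpecialPrime P Q n q) (hs' : IsSpecialPrime P Q n q') : q = q' := by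
  wlog hlt : q ≤ q' generalizing q q'
  · exact (this hs' hs (by omega)).symm
  by_contra hne
  have hq := Nat.prime_of_mem_primeFactors hs.1
  have hq' := Nat.prime_of_mem_primeFactors hs'.1
  obtain ⟨r, hr2, hcase, hqr, hall⟩ := special_rank hco hn hs
  have hd := other_dvd_rank hqr hall hq' (Ne.symm hne) (Nat.dvd_of_mem_primeFactors hs'.1)
  have := hq.two_le
  rcases hcase with (h | h) | h
  · have := Nat.le_of_dvd (by omega) (hd.trans h)
    omega
  · have := Nat.le_of_dvd (by omega) (hd.trans h)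
    obtain rfl : q' = q + 1 := by omega
    obtain rfl : q = 2 := by
      rcases hq.eq_two_or_odd with e | e
      · exact e
      · rcases hq'.eq_two_or_odd with e' | e' <;> omega
    obtain rfl : r = 3 := ((Nat.dvd_prime Nat.prime_three).1 h).resolve_left (by omega)
    obtain ⟨a, ha⟩ := hqr
    obtain ⟨r', hr2', hcase', hqr', hall'⟩ := special_rank hco hn hs'
    have h2r := other_dvd_rank hqr' hall' Nat.prime_two (by norm_num) ⟨3 * a, by rw [ha]; ring⟩
    have hr4 : r' ∣ 4 := by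
      rcases hcase' with (h' | h') | h'
      · exact h'.trans ⟨2, rfl⟩
      · exact h'
      · omega
    have two : ∀ p, p.Prime → p ∣ a → p = 2 := fun p hp hpa =>
      of_not_not fun hp2 => hall p hp hp2 (ha ▸ Nat.mul_dvd_mul (by norm_num) hpa)
    obtain ⟨p, hp, hpa⟩ := Nat.exists_prime_and_dvd (show a ≠ 1 by omega)
    obtain rfl := two p hp hpa
    obtain ⟨b, rfl⟩ := hpa
    obtain ⟨p, hp, hpb⟩ := Nat.exists_prime_and_dvd (show b ≠ 1 by omega)
    obtain rfl := two p hp (hpb.mul_left 2)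
    obtain ⟨c, rfl⟩ := hpb
    exact hall' 2 hp (by norm_num) ((Nat.mul_dvd_mul_right hr4 2).trans ⟨3 * c, by rw [ha]; ring⟩)
  · exact hne ((Nat.prime_dvd_prime_iff_eq hq' hq).1 (h ▸ hd)).symm

theorem normPart_mul (h : IsRealPair P Q) (hn : 2 ≤ n) :
    normPart P Q n * ∏ d ∈ (n.divisors.erase 1).erase n, normPart P Q d =
      (lucasU P Q n).natAbs ^ 2 := by
  rw [← prod_normPart h (show 0 < n by omega),
    mul_prod_erase _ _ (mem_erase.2 ⟨by omega, Nat.mem_divisors_self n (by omega)⟩)]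

theorem sq_dvd_prod (h : IsRealPair P Q) (hn : 0 < n) {m : ℕ} (hm : m ∣ n) (hmn : m < n) :
    (lucasU P Q m).natAbs ^ 2 ∣ ∏ d ∈ (n.divisors.erase 1).erase n, normPart P Q d := by
  have hm0 : 0 < m := Nat.pos_of_dvd_of_pos hm hn
  rw [← prod_normPart h hm0]
  refine prod_dvd_prod_of_subset _ _ _ fun d hd => ?_
  rw [mem_erase, Nat.mem_divisors] at hd
  have := Nat.le_of_dvd hm0 hd.2.1
  exact mem_erase.2 ⟨by omega, mem_erase.2 ⟨hd.1, Nat.mem_divisors.2 ⟨hd.2.1.trans hm, hn.ne'⟩⟩⟩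

open Classical in
/-- The product of the special primes. -/
def specialProd (P Q : ℤ) (n : ℕ) : ℕ :=
  ∏ q ∈ n.primeFactors with IsSpecialPrime P Q n q, q

theorem specialProd_le {S : Finset ℕ} (hS : ∀ q, IsSpecialPrime P Q n q → q ∈ S)
    (h1 : ∀ q ∈ S, 1 ≤ q) : specialProd P Q n ≤ ∏ q ∈ S, q := by
  classical
  exact prod_le_prod_of_subset_of_one_le' (fun q hq => hS q (mem_filter.1 hq).2)
    fun q hq _ => h1 q hq

theorem normPart_dvd (h : IsRealPair P Q) (hn : 3 ≤ n) (h6 : n ≠ 6)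
    (hno : ∀ p : ℕ, p.Prime → (p : ℤ) ∣ lucasU P Q n →
      ∃ j, 0 < j ∧ j < n ∧ (p : ℤ) ∣ lucasU P Q j) :
    normPart P Q n ∣ specialProd P Q n ^ 2 := by
  classical
  set G := ∏ d ∈ (n.divisors.erase 1).erase n, normPart P Q d
  set c := specialProd P Q n
  set N := (lucasU P Q n).natAbs
  have hG : 0 < G := prod_pos fun d hd =>
    normPart_pos h (Nat.pos_of_mem_divisors (mem_of_mem_erase (mem_of_mem_erase hd)))
  have hN : N ≠ 0 := Int.natAbs_ne_zero.2 (lucasU_ne_zero h (by omega))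
  have hlocal : ∀ q v : ℕ, q.Prime → 0 < v → q ^ v ∣ N → (q ^ v) ^ 2 ∣ c ^ 2 * G := by
    intro q v hq hv hqv
    have hqv' : (q : ℤ) ^ v ∣ lucasU P Q n := by
      rw [← Nat.cast_pow]
      exact Int.natCast_dvd.2 hqv
    have hqn : (q : ℤ) ∣ lucasU P Q n := (dvd_pow_self _ hv.ne').trans hqv'
    obtain ⟨j, hj0, hjn, hj⟩ := hno q hq hqn
    obtain ⟨r, -, hrj, hr, -⟩ := exists_rank h.coprime hq hj0 hj
    obtain ⟨e, he⟩ := (hr n).1 hqn
    obtain ⟨p, hp, hpe⟩ := Nat.exists_prime_and_dvd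
      (show e ≠ 1 from fun h1 => by rw [h1, mul_one] at he; omega)
    have hpn : p ∈ n.primeFactors :=
      Nat.mem_primeFactors.2 ⟨hp, he ▸ hpe.mul_left r, by omega⟩
    have hqp : (q : ℤ) ∣ lucasU P Q (n / p) :=
      (hr _).2 ⟨e / p, by rw [he, Nat.mul_div_assoc r hpe]⟩
    have lift : ∀ p' ∈ n.primeFactors, (q : ℤ) ∣ lucasU P Q (n / p') →
        (p' = 2 → q = 2 → Even (n / p')) →
        q ^ v ∣ (if p' = q then q else 1) * (lucasU P Q (n / p')).natAbs := by
      intro p' hp' hd hev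
      have hp'n := Nat.dvd_of_mem_primeFactors hp'
      have hpp := Nat.prime_of_mem_primeFactors hp'
      have h' := dvd_of_dvd_lucasU_mul h.coprime hq hpp
        (Nat.div_pos (Nat.le_of_dvd (by omega) hp'n) hpp.pos) hd hev
        (by rwa [Nat.div_mul_cancel hp'n])
      rw [← Int.natAbs_dvd_natAbs, Int.natAbs_pow, Int.natAbs_natCast, Int.natAbs_mul] at h'
      split_ifs with e' <;> simpa [e'] using h'
    by_cases hs : ∀ p' ∈ n.primeFactors, (q : ℤ) ∣ lucasU P Q (n / p') → p' = q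
    · have hpq := hs p hpn hqp
      subst hpq
      have hspec : IsSpecialPrime P Q n p := ⟨hpn, hqp, hs⟩
      have hev : p = 2 → p = 2 → Even (n / p) := fun h2 _ => by
        subst h2
        obtain ⟨b, hb⟩ := four_dvd_of_special_two h.coprime (by omega) h6 hspec
        exact ⟨b, by omega⟩
      have h' := lift p hpn hqp hev
      rw [if_pos rfl] at h'
      refine (pow_dvd_pow_of_dvd h' 2).trans ?_
      rw [mul_pow]
      exact mul_dvd_mul (pow_dvd_pow_of_dvd (dvd_prod_of_mem _ (mem_filter.2 ⟨hpn, hspec⟩)) 2)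
        (sq_dvd_prod h (by omega) (Nat.div_dvd_of_dvd (Nat.dvd_of_mem_primeFactors hpn))
          (Nat.div_lt_self (by omega) hp.one_lt))
    · push Not at hs
      obtain ⟨p', hp', hd, hne⟩ := hs
      have h' := lift p' hp' hd fun h2 hq2 => absurd (h2.trans hq2.symm) hne
      rw [if_neg hne, one_mul] at h'
      exact (pow_dvd_pow_of_dvd h' 2).trans ((sq_dvd_prod h (by omega)
        (Nat.div_dvd_of_dvd (Nat.dvd_of_mem_primeFactors hp'))
        (Nat.div_lt_self (by omega) (Nat.prime_of_mem_primeFactors hp').one_lt)).mul_left _)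
  refine (Nat.mul_dvd_mul_iff_right hG).1 ?_
  rw [normPart_mul h (by omega)]
  refine (Nat.dvd_iff_prime_pow_dvd_dvd _ _).2 fun q k hq hd => ?_
  have hk := (hq.pow_dvd_iff_le_factorization (pow_ne_zero 2 hN)).1 hd
  rw [Nat.factorization_pow, Finsupp.smul_apply, smul_eq_mul] at hk
  rcases Nat.eq_zero_or_pos (N.factorization q) with h0 | h0
  · have hk0 : k = 0 := by
      rw [h0] at hk
      omega
    simp [hk0]
  · refine ((pow_dvd_pow q hk).trans ?_).trans (hlocal q _ hq h0 (Nat.ordProj_dvd N q))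
    rw [← pow_mul, mul_comm]

theorem small_values (h : IsRealPair P Q) :
    normPart P Q 3 = (lucasU P Q 3).natAbs ^ 2 ∧
    (lucasU P Q 2).natAbs ^ 2 * normPart P Q 4 = (lucasU P Q 4).natAbs ^ 2 ∧
    (lucasU P Q 5).natAbs ^ 2 * (lucasU P Q 2).natAbs ^ 2 * normPart P Q 10 =
      (lucasU P Q 10).natAbs ^ 2 ∧
    (lucasU P Q 6).natAbs ^ 2 * (lucasU P Q 4).natAbs ^ 2 * normPart P Q 12 =
      (lucasU P Q 12).natAbs ^ 2 * (lucasU P Q 2).natAbs ^ 2 ∧
    (lucasU P Q 7).natAbs ^ 2 * (lucasU P Q 2).natAbs ^ 2 * normPart P Q 14 =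
      (lucasU P Q 14).natAbs ^ 2 := by
  have key : ∀ m, 0 < m → (lucasU P Q m).natAbs ^ 2 = ∏ d ∈ m.divisors.erase 1, normPart P Q d :=
    fun m hm => (prod_normPart h hm).symm
  have e : (Nat.divisors 2).erase 1 = {2} ∧ (Nat.divisors 3).erase 1 = {3} ∧
      (Nat.divisors 4).erase 1 = {2, 4} ∧ (Nat.divisors 5).erase 1 = {5} ∧
      (Nat.divisors 6).erase 1 = {2, 3, 6} ∧ (Nat.divisors 7).erase 1 = {7} ∧
      (Nat.divisors 10).erase 1 = {2, 5, 10} ∧
      (Nat.divisors 12).erase 1 = {2, 3, 4, 6, 12} ∧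
      (Nat.divisors 14).erase 1 = {2, 7, 14} := by decide
  obtain ⟨e2, e3, e4, e5, e6, e7, e10, e12, e14⟩ := e
  rw [key 2 (by norm_num), key 3 (by norm_num), key 4 (by norm_num), key 5 (by norm_num),
    key 6 (by norm_num), key 7 (by norm_num), key 10 (by norm_num), key 12 (by norm_num),
    key 14 (by norm_num), e2, e3, e4, e5, e6, e7, e10, e12, e14]
  simp only [prod_insert, prod_singleton, mem_insert, mem_singleton, Nat.reduceEqDiff,
    or_self, not_false_eq_true]
  refine ⟨trivial, trivial, ?_, ?_, ?_⟩ <;> ring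

theorem small_lower (h : IsRealPair P Q) :
    1 < normPart P Q 3 ∧ 4 < normPart P Q 4 ∧ 100 < normPart P Q 10 ∧
      (36 < normPart P Q 12 ∨ (P ^ 2 = 1 ∧ Q = -1)) ∧ 196 < normPart P Q 14 := by
  obtain ⟨a3, a4, a10, a12, a14⟩ := small_values isRealPair_one_neg_one
  obtain ⟨b3, b4, b10, b12, b14⟩ := small_values isRealPair_three_two
  norm_num [lucasU] at a3 a4 a10 a12 a14 b3 b4 b10 b12 b14
  refine ⟨?_, ?_, ?_, ?_, ?_⟩
  · rcases normPart_le h le_rfl with h' | ⟨h', -⟩ <;> omega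
  · rcases normPart_le h (show 3 ≤ 4 by norm_num) with h' | ⟨h', -⟩ <;> omega
  · rcases normPart_le h (show 3 ≤ 10 by norm_num) with h' | ⟨h', -⟩ <;> omega
  · rcases normPart_le h (show 3 ≤ 12 by norm_num) with h' | ⟨h', h'' | h''⟩
    · exact Or.inl (by omega)
    · exact Or.inr h''
    · exact Or.inl (by omega)
  · rcases normPart_le h (show 3 ≤ 14 by norm_num) with h' | ⟨h', -⟩ <;> omega

theorem three_mul_lt_pow {e : ℕ} (he : 8 ≤ e) : 3 * ((e : ℝ) + 1) < (8 / 5) ^ e := by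
  induction e, he using Nat.le_induction with
  | base => norm_num
  | succ e he ih =>
    have h8 : (8 : ℝ) ≤ e := by exact_mod_cast he
    rw [pow_succ]
    push_cast
    nlinarith

theorem special_small (hco : IsCoprime P Q) (hn : 3 ≤ n) (h6 : n ≠ 6) (h12 : n ≠ 12)
    (h10 : n ≠ 10) (h14 : n ≠ 14) (h4 : 4 ≤ n.totient) {q : ℕ}
    (hs : IsSpecialPrime P Q n q) : 3 * (q : ℝ) < (8 / 5) ^ n.totient := by
  have hq := Nat.prime_of_mem_primeFactors hs.1
  have hqn := Nat.dvd_of_mem_primeFactors hs.1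
  have htot : 0 < n.totient := by omega
  have mono : ∀ k, k ≤ n.totient → (8 / 5 : ℝ) ^ k ≤ (8 / 5) ^ n.totient :=
    fun k hk => pow_le_pow_right₀ (by norm_num) hk
  rcases (show q = 2 ∨ q = 3 ∨ 5 ≤ q by
    rcases hq.eq_two_or_odd with e | e
    · exact Or.inl e
    · have := hq.two_le
      omega) with rfl | rfl | h5
  · have := mono 4 h4
    norm_num at this ⊢
    linarith
  · have h : 5 ≤ n.totient := by
      by_contra hlt
      obtain ⟨m, hm⟩ := hqn
      by_cases h9 : 3 ∣ m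
      · obtain ⟨l, rfl⟩ := h9
        have := Nat.le_of_dvd htot (Nat.totient_dvd_of_dvd (show 9 ∣ n from ⟨l, by rw [hm]; ring⟩))
        rw [show Nat.totient 9 = 6 by decide] at this
        omega
      · have hcop := Nat.prime_three.coprime_iff_not_dvd.2 h9
        rw [hm, Nat.totient_mul hcop, Nat.totient_prime Nat.prime_three] at hlt h4
        by_cases h12' : m ∣ 12
        · have := Nat.le_of_dvd (by norm_num) h12'
          interval_cases m <;> first | omega | (rw [Nat.totient_one] at h4; omega)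
        · have := FibonacciPrimitive.four_le_totient (show m ≠ 0 by omega) h12'
          omega
    have := mono 5 h
    norm_num at this ⊢
    linarith
  obtain ⟨r, hr2, hcase, hqr, hall⟩ := special_rank hco (by omega) hs
  suffices h : ∃ e, 8 ≤ e ∧ e ≤ n.totient ∧ q ≤ e + 1 by
    obtain ⟨e, he, hen, hqe⟩ := h
    have : (q : ℝ) ≤ (e : ℝ) + 1 := by exact_mod_cast hqe
    linarith [three_mul_lt_pow he, mono e hen]
  have hle : ∀ d, d ∣ n → d.totient ≤ n.totient :=
    fun d hd => Nat.le_of_dvd htot (Nat.totient_dvd_of_dvd hd)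
  have hsq : q * q ∣ n → ∃ e, 8 ≤ e ∧ e ≤ n.totient ∧ q ≤ e + 1 := fun h => by
    refine ⟨2 * (q - 1), by omega, ?_, by omega⟩
    have h' := hle _ h
    rw [← sq, Nat.totient_prime_pow hq two_pos, show 2 - 1 = 1 from rfl, pow_one] at h'
    exact le_trans (Nat.mul_le_mul_right _ (by omega)) h'
  by_cases hqd : q ∣ r
  · exact hsq ((Nat.mul_dvd_mul_left q hqd).trans hqr)
  have hcop := hq.coprime_iff_not_dvd.2 hqd
  rcases (show r = 2 ∨ 3 ≤ r by omega) with rfl | hr3
  · obtain ⟨a, ha⟩ := hqr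
    by_cases ha1 : a = 1
    · subst ha1
      have : q ≠ 5 := fun e => h10 (by omega)
      have : q ≠ 7 := fun e => h14 (by omega)
      have : q ≠ 6 ∧ q ≠ 8 ∧ q ≠ 9 ∧ q ≠ 10 :=
        ⟨fun e => absurd (e ▸ hq) (by norm_num), fun e => absurd (e ▸ hq) (by norm_num),
          fun e => absurd (e ▸ hq) (by norm_num), fun e => absurd (e ▸ hq) (by norm_num)⟩
      refine ⟨q - 1, by omega, ?_, by omega⟩
      rw [← Nat.totient_prime hq]
      exact hle q ⟨2, by rw [ha, mul_one]⟩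
    · obtain ⟨p, hp, hpa⟩ := Nat.exists_prime_and_dvd ha1
      rcases eq_or_ne p q with rfl | hne
      · exact hsq (ha ▸ Nat.mul_dvd_mul (dvd_mul_right p 2) hpa)
      · exact (hall p hp hne (ha ▸ Nat.mul_dvd_mul (dvd_mul_left 2 q) hpa)).elim
  · refine ⟨2 * (q - 1), by omega, ?_, by omega⟩
    have h' := hle _ hqr
    rw [Nat.totient_mul hcop, Nat.totient_prime hq, mul_comm] at h'
    refine le_trans (Nat.mul_le_mul_right _ ?_) h'
    obtain ⟨f, hf⟩ := Nat.totient_even hr3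
    have := Nat.totient_pos.2 (show 0 < r by omega)
    omega

/-- **Carmichael's theorem.** -/
theorem exists_primitive (h : IsRealPair P Q) (hn : 3 ≤ n) (h6 : n ≠ 6)
    (h12 : ¬(n = 12 ∧ P ^ 2 = 1 ∧ Q = -1)) :
    ∃ p : ℕ, p.Prime ∧ (p : ℤ) ∣ lucasU P Q n ∧ (∀ j, 0 < j → j < n → ¬(p : ℤ) ∣ lucasU P Q j) ∧
      (n ∣ p - 1 ∨ n ∣ p + 1 ∨ (n = p ∧ (p : ℤ) ∣ P ^ 2 - 4 * Q)) := by
  classical
  suffices hex : ∃ p : ℕ, p.Prime ∧ (p : ℤ) ∣ lucasU P Q n ∧
      ∀ j, 0 < j → j < n → ¬(p : ℤ) ∣ lucasU P Q j by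
    obtain ⟨p, hp, hd, hj⟩ := hex
    refine ⟨p, hp, hd, hj, ?_⟩
    obtain ⟨r, hr2, hrn, hr, hcase⟩ := exists_rank h.coprime hp (show 0 < n by omega) hd
    have e : r = n := hrn.eq_or_lt.resolve_right fun hlt => hj r (by omega) hlt ((hr r).2 dvd_rfl)
    subst e
    tauto
  by_contra hno
  push Not at hno
  have hle := Nat.le_of_dvd (pow_pos (prod_pos fun q hq =>
    (Nat.prime_of_mem_primeFactors (mem_filter.1 hq).1).pos) 2) (normPart_dvd h hn h6 hno)
  have bound : ∀ {S : Finset ℕ}, (∀ q, IsSpecialPrime P Q n q → q ∈ S) → (∀ q ∈ S, 1 ≤ q) →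
      normPart P Q n ≤ (∏ q ∈ S, q) ^ 2 :=
    fun hS h1 => hle.trans (Nat.pow_le_pow_left (specialProd_le hS h1) 2)
  obtain ⟨l3, l4, l10, l12, l14⟩ := small_lower h
  have mem_small : ∀ S : Finset ℕ, n ≤ 14 → (∀ q ≤ n, q.Prime → q ∣ n → q ∈ S) →
      ∀ q, IsSpecialPrime P Q n q → q ∈ S := fun S _ hS q hq =>
    hS q (Nat.le_of_dvd (by omega) (Nat.dvd_of_mem_primeFactors hq.1))
      (Nat.prime_of_mem_primeFactors hq.1) (Nat.dvd_of_mem_primeFactors hq.1)
  by_cases n3 : n = 3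
  · subst n3
    have := bound (S := ∅) (fun q hq => by
      obtain rfl : q = 3 := ((Nat.dvd_prime Nat.prime_three).1
        (Nat.dvd_of_mem_primeFactors hq.1)).resolve_left
          (Nat.prime_of_mem_primeFactors hq.1).one_lt.ne'
      have h1 := hq.2.1
      norm_num [lucasU] at h1) (by simp)
    simp at this
    omega
  by_cases n4 : n = 4
  · subst n4
    have := bound (S := {2}) (mem_small _ (by norm_num) fun q hq hp hd => by
      interval_cases q <;> norm_num at *) (by simp)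
    simp at this
    omega
  by_cases n10 : n = 10
  · subst n10
    have := bound (S := {2, 5}) (mem_small _ (by norm_num) fun q hq hp hd => by
      interval_cases q <;> norm_num at *) (by simp)
    simp at this
    omega
  by_cases n12 : n = 12
  · subst n12
    have := bound (S := {2, 3}) (mem_small _ (by norm_num) fun q hq hp hd => by
      interval_cases q <;> norm_num at *) (by simp)
    simp at this
    rcases l12 with l | l
    · omega
    · exact h12 ⟨rfl, l⟩
  by_cases n14 : n = 14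
  · subst n14
    have := bound (S := {2, 7}) (mem_small _ (by norm_num) fun q hq hp hd => by
      interval_cases q <;> norm_num at *) (by simp)
    simp at this
    omega
  have h4 : 4 ≤ n.totient := FibonacciPrimitive.four_le_totient (by omega) fun hd => by
    have := Nat.le_of_dvd (by norm_num) hd
    interval_cases n <;> omega
  suffices hc : 3 * (specialProd P Q n : ℝ) < (8 / 5) ^ n.totient by
    have h1 : (normPart P Q n : ℝ) ≤ (specialProd P Q n : ℝ) ^ 2 := by exact_mod_cast hle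
    have h2 := pow_lt_pow_left₀ (show (specialProd P Q n : ℝ) < (8 / 5) ^ n.totient / 3 by
      linarith) (Nat.cast_nonneg _) two_ne_zero
    linarith [normPart_lower h hn]
  by_cases hsp : ∃ q, IsSpecialPrime P Q n q
  · obtain ⟨q, hq⟩ := hsp
    have he : specialProd P Q n = q := by
      rw [specialProd, show n.primeFactors.filter (IsSpecialPrime P Q n) = {q} from
        eq_singleton_iff_unique_mem.2 ⟨mem_filter.2 ⟨hq.1, hq⟩, fun x hx =>
          special_eq h.coprime (by omega) h6 n12 (mem_filter.1 hx).2 hq⟩, prod_singleton]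
    rw [he]
    exact special_small h.coprime hn h6 n12 n10 n14 h4 hq
  · have he : specialProd P Q n = 1 :=
      prod_eq_one fun x hx => absurd ⟨x, (mem_filter.1 hx).2⟩ hsp
    rw [he]
    have : (8 / 5 : ℝ) ^ 4 ≤ (8 / 5) ^ n.totient := pow_le_pow_right₀ (by norm_num) h4
    norm_num at this ⊢
    linarith

/-- **All the exceptions.** -/
theorem exists_primitive_iff (h : IsRealPair P Q) (hn : 0 < n) :
    (∃ p : ℕ, p.Prime ∧ (p : ℤ) ∣ lucasU P Q n ∧ ∀ j, 0 < j → j < n → ¬(p : ℤ) ∣ lucasU P Q j) ↔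
      n ≠ 1 ∧ (n = 2 → P ^ 2 ≠ 1) ∧
        (n = 6 → ∃ p : ℕ, p.Prime ∧ 5 ≤ p ∧ (p : ℤ) ∣ P ^ 2 - 3 * Q) ∧
        ¬(n = 12 ∧ P ^ 2 = 1 ∧ Q = -1) := by
  have e2 : lucasU P Q 2 = P := by simp [lucasU]
  have e3 : lucasU P Q 3 = P ^ 2 - Q := by simp [lucasU, sq]
  have e6 : lucasU P Q 6 = lucasU P Q 3 * (P * (P ^ 2 - 3 * Q)) := by
    simp only [lucasU]
    ring
  constructor
  · rintro ⟨p, hp, hd, hj⟩
    have hpi := Nat.prime_iff_prime_int.1 hp
    refine ⟨?_, ?_, ?_, ?_⟩
    · rintro rfl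
      exact hpi.not_dvd_one (by simpa [lucasU] using hd)
    · rintro rfl hP
      rw [e2] at hd
      exact hpi.not_dvd_one (hP ▸ dvd_pow hd two_ne_zero)
    · rintro rfl
      have h3' := hj 3 (by norm_num) (by norm_num)
      have h2' := hj 2 (by norm_num) (by norm_num)
      rw [e2] at h2'
      rw [e6] at hd
      have hd' := ((hpi.dvd_or_dvd ((hpi.dvd_or_dvd hd).resolve_left h3')).resolve_left h2')
      refine ⟨p, hp, ?_, hd'⟩
      by_contra hlt
      push Not at hlt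
      interval_cases p <;> norm_num at hp
      · push_cast at hd' h3'
        refine h3' ?_
        rw [e3]
        omega
      · push_cast at hd' h2'
        exact h2' (Int.prime_three.dvd_of_dvd_pow (n := 2) (by omega))
    · rintro ⟨rfl, hP, rfl⟩
      have h3' := hj 3 (by norm_num) (by norm_num)
      have h4' := hj 4 (by norm_num) (by norm_num)
      have h12 : (p : ℤ) ∣ 2 ^ 4 * 3 ^ 2 := by
        rcases sq_eq_one_iff.1 hP with rfl | rfl <;> norm_num [lucasU] at hd ⊢ <;> exact hd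
      rcases sq_eq_one_iff.1 hP with rfl | rfl <;> norm_num [lucasU] at h3' h4' <;>
        rcases hpi.dvd_or_dvd h12 with h' | h' <;>
        first
          | exact h3' (hpi.dvd_of_dvd_pow h')
          | exact h4' (hpi.dvd_of_dvd_pow h')
  · rintro ⟨h1, h2, h6, h12⟩
    rcases (show n = 2 ∨ n = 6 ∨ (3 ≤ n ∧ n ≠ 6) by clear e2 e3 e6 h2 h6 h12; omega)
      with rfl | rfl | ⟨h3', h6'⟩
    · obtain ⟨p, hp, hd⟩ := Nat.exists_prime_and_dvd (show P.natAbs ≠ 1 from fun e =>
        h2 rfl (by rcases Int.natAbs_eq P with e' | e' <;> rw [e', e] <;> norm_num))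
      refine ⟨p, hp, e2.symm ▸ Int.natCast_dvd.2 hd, fun j hj0 hj2 hdj => ?_⟩
      obtain rfl : j = 1 := by omega
      exact (Nat.prime_iff_prime_int.1 hp).not_dvd_one (by simpa [lucasU] using hdj)
    · obtain ⟨p, hp, hp5, hd⟩ := h6 rfl
      have hpi := Nat.prime_iff_prime_int.1 hp
      have h6d : (p : ℤ) ∣ lucasU P Q 6 := e6 ▸ ((hd.mul_left P).mul_left _)
      refine ⟨p, hp, h6d, fun j hj0 hj6 hdj => ?_⟩
      have hQ : ¬(p : ℤ) ∣ Q := not_dvd_Q hp h.coprime hj0 hdj
      obtain ⟨r, hr2, hrj, hr, -⟩ := exists_rank h.coprime hp hj0 hdj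
      have small : ∀ c : ℕ, 0 < c → c < 5 → (p : ℤ) ∣ c * Q → False := fun c hc hc5 hdc => by
        rcases hpi.dvd_or_dvd hdc with h' | h'
        · have := Nat.le_of_dvd hc (Int.natCast_dvd_natCast.1 h')
          omega
        · exact hQ h'
      obtain hr6 : r = 2 ∨ r = 3 := by
        have := (hr 6).1 h6d
        have : r ≤ 5 := by omega
        interval_cases r <;> omega
      rcases hr6 with rfl | rfl
      · have hP : (p : ℤ) ∣ P := e2 ▸ (hr 2).2 dvd_rfl
        refine small 3 (by norm_num) (by norm_num) ?_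
        have := dvd_sub (dvd_pow hP two_ne_zero) hd
        rwa [show P ^ 2 - (P ^ 2 - 3 * Q) = ((3 : ℕ) : ℤ) * Q by push_cast; ring] at this
      · have h3 : (p : ℤ) ∣ P ^ 2 - Q := e3 ▸ (hr 3).2 dvd_rfl
        refine small 2 (by norm_num) (by norm_num) ?_
        have := dvd_sub h3 hd
        rwa [show P ^ 2 - Q - (P ^ 2 - 3 * Q) = ((2 : ℕ) : ℤ) * Q by push_cast; ring] at this
    · obtain ⟨p, hp, hd, hj, -⟩ := exists_primitive h h3' h6' h12
      exact ⟨p, hp, hd, hj⟩

theorem lucasU_fib (n : ℕ) : lucasU 1 (-1) n = (n.fib : ℤ) := by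
  induction n using Nat.twoStepInduction with
  | zero => rfl
  | one => rfl
  | more n h1 h2 =>
    rw [lucasU, h1, h2, Nat.fib_add_two]
    push_cast
    ring

end FA.RealLucasPrimitive
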